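import Mathlib
import Fermat.Agent.S51.Three

/-!
# MOONSHOT S52 (Program F), block K1, leaf I (GENERIC MOD-3), part (I2)

Transport of roots of the 3-division polynomial `psi3`:

* along an admissible change of variables over any field
  (`psi3 (C • W) x = u⁻⁸ psi3 W (u² x + r)`);
* along a quadratic twist of a short Weierstrass equation
  (`psi3 (y² = x³ + A d² x + B d³) (d x) = d⁴ psi3 (y² = x³ + A x + B) x`);
* along a homomorphism of fields.

Mathlib + `S51/Three` only.  Branch-only work.
-/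

set_option autoImplicit false

namespace Fermat.Agent.SW.K1I.Twist

open WeierstrassCurve Fermat.Agent.S51.Three

section VC

variable {F : Type*} [Field F]

/-- `psi3` of a change of variables. -/
theorem psi3_variableChange (W : WeierstrassCurve F) (C : VariableChange F) (x : F) :
    psi3 (C • W).toAffine x =
      ((C.u⁻¹ : Fˣ) : F) ^ 8 * psi3 W.toAffine ((C.u : F) ^ 2 * x + C.r) := by
  have hu : ((C.u⁻¹ : Fˣ) : F) * (C.u : F) = 1 := by
    rw [← Units.val_mul, inv_mul_cancel, Units.val_one]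
  simp only [psi3, WeierstrassCurve.toAffine, variableChange_b₂, variableChange_b₄,
    variableChange_b₆, variableChange_b₈]
  generalize ((C.u⁻¹ : Fˣ) : F) = v at hu ⊢
  generalize (C.u : F) = u at hu ⊢
  have hu2 : v ^ 2 * u ^ 2 = 1 := by rw [← mul_pow, hu, one_pow]
  have hu4 : v ^ 4 * u ^ 4 = 1 := by rw [← mul_pow, hu, one_pow]
  have hu6 : v ^ 6 * u ^ 6 = 1 := by rw [← mul_pow, hu, one_pow]
  have hu8 : v ^ 8 * u ^ 8 = 1 := by rw [← mul_pow, hu, one_pow]
  linear_combination (-(3 * x ^ 4)) * hu8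
    + (-(v ^ 2 * (W.b₂ + 12 * C.r) * x ^ 3)) * hu6
    + (-(3 * (v ^ 4 * (W.b₄ + C.r * W.b₂ + 6 * C.r ^ 2)) * x ^ 2)) * hu4
    + (-(3 * (v ^ 6 * (W.b₆ + 2 * C.r * W.b₄ + C.r ^ 2 * W.b₂ + 4 * C.r ^ 3)) * x)) * hu2

/-- A root of `psi3 (C • W)` gives a root of `psi3 W`. -/
theorem exists_psi3_root_of_variableChange (W : WeierstrassCurve F) (C : VariableChange F)
    (h : ∃ x : F, psi3 (C • W).toAffine x = 0) : ∃ x : F, psi3 W.toAffine x = 0 := by
  obtain ⟨x, hx⟩ := h
  refine ⟨(C.u : F) ^ 2 * x + C.r, ?_⟩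
  rw [psi3_variableChange] at hx
  rcases mul_eq_zero.mp hx with h | h
  · exact absurd (pow_eq_zero_iff (n := 8) (by norm_num) |>.mp h) (Units.ne_zero _)
  · exact h

/-- A root of `psi3 W` gives a root of `psi3 (C • W)`. -/
theorem exists_psi3_root_variableChange (W : WeierstrassCurve F) (C : VariableChange F)
    (h : ∃ x : F, psi3 W.toAffine x = 0) : ∃ x : F, psi3 (C • W).toAffine x = 0 := by
  apply exists_psi3_root_of_variableChange (C • W) C⁻¹
  rwa [← mul_smul, inv_mul_cancel, one_smul]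

end VC

section Short

/-- The short Weierstrass curve `y² = x³ + A x + B`. -/
def shortW {F : Type*} [CommRing F] (A B : F) : WeierstrassCurve F := ⟨0, 0, 0, A, B⟩

variable {F : Type*} [Field F]

theorem psi3_shortW (A B x : F) :
    psi3 (shortW A B).toAffine x = 3 * x ^ 4 + 6 * A * x ^ 2 + 12 * B * x - A ^ 2 := by
  simp only [psi3, shortW, WeierstrassCurve.toAffine, WeierstrassCurve.b₂, WeierstrassCurve.b₄,
    WeierstrassCurve.b₆, WeierstrassCurve.b₈]
  ring

/-- `psi3` of the quadratic twist by `d` of a short Weierstrass equation. -/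
theorem psi3_shortW_twist (A B d x : F) :
    psi3 (shortW (A * d ^ 2) (B * d ^ 3)).toAffine (d * x) =
      d ^ 4 * psi3 (shortW A B).toAffine x := by
  rw [psi3_shortW, psi3_shortW]
  ring

end Short

section ShortField

variable {F : Type*} [Field F]

/-- A root of `psi3` of the twist by `d ≠ 0` gives a root of `psi3` of the curve. -/
theorem exists_psi3_root_of_twist (A B d : F) (hd : d ≠ 0)
    (h : ∃ x : F, psi3 (shortW (A * d ^ 2) (B * d ^ 3)).toAffine x = 0) :
    ∃ x : F, psi3 (shortW A B).toAffine x = 0 := by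
  obtain ⟨x, hx⟩ := h
  refine ⟨d⁻¹ * x, ?_⟩
  have h1 := psi3_shortW_twist A B d (d⁻¹ * x)
  rw [← mul_assoc, mul_inv_cancel₀ hd, one_mul, hx] at h1
  rcases mul_eq_zero.mp h1.symm with h | h
  · exact absurd (pow_eq_zero_iff (n := 4) (by norm_num) |>.mp h) hd
  · exact h

/-- A root of `psi3` of the curve gives a root of `psi3` of the twist. -/
theorem exists_psi3_root_twist (A B d : F)
    (h : ∃ x : F, psi3 (shortW A B).toAffine x = 0) :
    ∃ x : F, psi3 (shortW (A * d ^ 2) (B * d ^ 3)).toAffine x = 0 := by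
  obtain ⟨x, hx⟩ := h
  exact ⟨d * x, by rw [psi3_shortW_twist, hx, mul_zero]⟩

end ShortField

section Map

variable {F L : Type*} [Field F] [Field L]

/-- `psi3` commutes with a homomorphism of fields. -/
theorem psi3_map (W : WeierstrassCurve F) (f : F →+* L) (x : F) :
    psi3 (W.map f).toAffine (f x) = f (psi3 W.toAffine x) := by
  simp only [psi3, WeierstrassCurve.toAffine, WeierstrassCurve.map_b₂, WeierstrassCurve.map_b₄,
    WeierstrassCurve.map_b₆, WeierstrassCurve.map_b₈, map_add, map_mul, map_pow, map_ofNat]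

/-- A root of `psi3 W` over `F` gives a root over any extension. -/
theorem exists_psi3_root_map (W : WeierstrassCurve F) (f : F →+* L)
    (h : ∃ x : F, psi3 W.toAffine x = 0) : ∃ x : L, psi3 (W.map f).toAffine x = 0 := by
  obtain ⟨x, hx⟩ := h
  exact ⟨f x, by rw [psi3_map, hx, map_zero]⟩

end Map

end Fermat.Agent.SW.K1I.Twist
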