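import Mathlib
import Fermat.Agent.S51.Three
import Fermat.Agent.SW.K1I.Twist

/-!
# MOONSHOT S52 (Program F), block K1, leaf I (GENERIC MOD-3), part (I3)

A root, in a finite extension `Ω / T` whose degree has no divisor in `{2, 3, 4}` (e.g. a degree
dividing `5`), of a nonzero polynomial of degree at most four over `T` already lies in `T`.
Applied to `psi3`: a root of `psi3 W` in `Ω` descends to a root in `T`.

Mathlib + `S51/Three` only.  Branch-only work.
-/

set_option autoImplicit false

namespace Fermat.Agent.SW.K1I.Degree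

open Polynomial IntermediateField Fermat.Agent.S51.Three

variable {T Ω : Type*} [Field T] [Field Ω] [Algebra T Ω]

/-- A root of a nonzero polynomial of degree `≤ 4` over `T` in a finite extension `Ω` whose degree
has no divisor in `{2, 3, 4}` lies in `T`. -/
theorem mem_range_of_root [FiniteDimensional T Ω]
    (hfin : ∀ m : ℕ, m ∣ Module.finrank T Ω → m ≤ 4 → m = 1)
    (p : T[X]) (hp0 : p ≠ 0) (hp : p.natDegree ≤ 4) (x : Ω) (hx : aeval x p = 0) :
    x ∈ (algebraMap T Ω).range := by
  have hint : IsIntegral T x := Algebra.IsIntegral.isIntegral x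
  rw [← minpoly.natDegree_eq_one_iff]
  apply hfin
  · rw [← IntermediateField.adjoin.finrank hint]
    exact ⟨_, (Module.finrank_mul_finrank T T⟮x⟯ Ω).symm⟩
  · exact (natDegree_le_of_dvd (minpoly.dvd T x hx) hp0).trans hp

/-- The hypothesis of `mem_range_of_root` when the degree divides five. -/
theorem hfin_of_dvd_five {n : ℕ} (hn : n ∣ 5) : ∀ m : ℕ, m ∣ n → m ≤ 4 → m = 1 := by
  intro m hm hm4
  have h5 : m ∣ 5 := hm.trans hn
  have := (Nat.dvd_prime (by norm_num : Nat.Prime 5)).mp h5
  omega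

theorem aeval_psi3Poly (W : WeierstrassCurve T) (x : Ω) :
    aeval x (psi3Poly W.toAffine) = psi3 (W.map (algebraMap T Ω)).toAffine x := by
  simp only [psi3Poly, psi3, WeierstrassCurve.toAffine, WeierstrassCurve.map_b₂,
    WeierstrassCurve.map_b₄, WeierstrassCurve.map_b₆, WeierstrassCurve.map_b₈, map_add, map_mul,
    map_pow, aeval_C, aeval_X, map_ofNat]

/-- **(I3)** A root of `psi3 W` in `Ω` descends to `T`. -/
theorem exists_psi3_root_of_map [CharZero T] [FiniteDimensional T Ω]
    (hfin : ∀ m : ℕ, m ∣ Module.finrank T Ω → m ≤ 4 → m = 1)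
    (W : WeierstrassCurve T)
    (h : ∃ x : Ω, psi3 (W.map (algebraMap T Ω)).toAffine x = 0) :
    ∃ x : T, psi3 W.toAffine x = 0 := by
  obtain ⟨x, hx⟩ := h
  have hx' : aeval x (psi3Poly W.toAffine) = 0 := by rw [aeval_psi3Poly, hx]
  obtain ⟨x₀, rfl⟩ := mem_range_of_root hfin (psi3Poly W.toAffine) (psi3Poly_ne_zero _)
    (natDegree_psi3Poly W.toAffine).le x hx'
  refine ⟨x₀, ?_⟩
  apply (algebraMap T Ω).injective
  rw [map_zero, ← Twist.psi3_map, hx]

/-- **(I3), descent form** (for helper24's `ELeaf.descend_of`): the same conclusion from the bare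
descent property `hdesc` (roots in `Ω` of nonzero polynomials of degree `≤ 4` over `T` lie in `T`);
no finiteness of `Ω / T` is needed. -/
theorem exists_psi3_root_of_map_of_descend [CharZero T]
    (hdesc : ∀ p : T[X], p ≠ 0 → p.natDegree ≤ 4 → ∀ x : Ω, aeval x p = 0 →
      x ∈ (algebraMap T Ω).range)
    (W : WeierstrassCurve T)
    (h : ∃ x : Ω, psi3 (W.map (algebraMap T Ω)).toAffine x = 0) :
    ∃ x : T, psi3 W.toAffine x = 0 := by
  obtain ⟨x, hx⟩ := h
  have hx' : aeval x (psi3Poly W.toAffine) = 0 := by rw [aeval_psi3Poly, hx]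
  obtain ⟨x₀, rfl⟩ := hdesc (psi3Poly W.toAffine) (psi3Poly_ne_zero _)
    (natDegree_psi3Poly W.toAffine).le x hx'
  refine ⟨x₀, ?_⟩
  apply (algebraMap T Ω).injective
  rw [map_zero, ← Twist.psi3_map, hx]

/-- The descent property follows from the degree hypothesis. -/
theorem descend_of_hfin [FiniteDimensional T Ω]
    (hfin : ∀ m : ℕ, m ∣ Module.finrank T Ω → m ≤ 4 → m = 1) :
    ∀ p : T[X], p ≠ 0 → p.natDegree ≤ 4 → ∀ x : Ω, aeval x p = 0 →
      x ∈ (algebraMap T Ω).range :=
  fun p hp0 hp x hx => mem_range_of_root hfin p hp0 hp x hx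

end Fermat.Agent.SW.K1I.Degree
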